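import Mathlib

/-!
# P-SS : the contraction lemma for supersingular tubes (helper45)

Mathlib only.  Let `R` be a commutative ring and `J` an ideal contained in the Jacobson radical
(for instance the maximal ideal of a valuation ring).  Let `n : ℕ` with `(n : R) ∈ J`
(the residue characteristic divides `n`), `c ∈ J`, and `Ψ ∈ R[X][Y]`.

If two points `(a, b)`, `(a', b')` of `R²` in the same residue class (`a - a' ∈ J`) satisfy

* `b - a ^ n = b' - a' ^ n`                      (same value `ξ` of the coordinate `X`),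
* `a - b ^ n = c * Ψ(a, b)` and `a' - b' ^ n = c * Ψ(a', b')`  (the curve `X Y = q Ψ`, `c = q / ξ`),

then `(a, b) = (a', b')`.

Application (P-SS, findings "P-SS DESIGN INPUT (helper45)"): on the plane model
`(X^q - Y)(X - Y^q) + q Ψ = 0` of `X₀(qM)` over the Hauptmodul line, the function
`X = H_q - H^q` is injective on a supersingular residue class, where `|q| < |X| < 1`.
-/

set_option autoImplicit false

namespace Fermat.Agent.H45

open Polynomial
open scoped Polynomial.Bivariate

variable {R : Type*} [CommRing R]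

/-- `a ^ n - a' ^ n = (a - a') * s` with `s ≡ n * a' ^ (n - 1)` modulo `a - a'`. -/
theorem ssc_pow_sub_pow (a a' : R) (n : ℕ) :
    ∃ s : R, a ^ n - a' ^ n = (a - a') * s ∧
      s - (n : R) * a' ^ (n - 1) ∈ Ideal.span ({a - a'} : Set R) := by
  refine ⟨∑ i ∈ Finset.range n, a ^ i * a' ^ (n - 1 - i), ?_, ?_⟩
  · rw [mul_comm]
    exact (Commute.all a a').geom_sum₂_mul n |>.symm
  · rw [← Ideal.Quotient.eq, map_sum, map_mul, map_natCast, map_pow]
    have haa : (Ideal.Quotient.mk (Ideal.span ({a - a'} : Set R))) a =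
        (Ideal.Quotient.mk (Ideal.span ({a - a'} : Set R))) a' := by
      rw [Ideal.Quotient.eq]
      exact Ideal.subset_span rfl
    have hterm : ∀ i ∈ Finset.range n,
        (Ideal.Quotient.mk (Ideal.span ({a - a'} : Set R))) (a ^ i * a' ^ (n - 1 - i)) =
          (Ideal.Quotient.mk (Ideal.span ({a - a'} : Set R))) a' ^ (n - 1) := by
      intro i hi
      rw [map_mul, map_pow, map_pow, haa, ← pow_add]
      congr 1
      have := Finset.mem_range.mp hi
      omega
    rw [Finset.sum_congr rfl hterm, Finset.sum_const, Finset.card_range, nsmul_eq_mul]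

/-- Lipschitz property of integral bivariate polynomials. -/
theorem ssc_evalEval_sub_mem (Ψ : R[X][Y]) (a b a' b' : R) :
    Ψ.evalEval a b - Ψ.evalEval a' b' ∈ Ideal.span ({a - a', b - b'} : Set R) := by
  have h1 : Ψ.evalEval a b - Ψ.evalEval a' b ∈ Ideal.span ({a - a', b - b'} : Set R) := by
    obtain ⟨u, hu⟩ := Polynomial.sub_dvd_eval_sub a a' (Ψ.eval (C b))
    have : Ψ.evalEval a b - Ψ.evalEval a' b = (a - a') * u := by
      simpa [Polynomial.evalEval] using hu
    rw [this]
    exact Ideal.mul_mem_right _ _ (Ideal.subset_span (by simp))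
  have h2 : Ψ.evalEval a' b - Ψ.evalEval a' b' ∈ Ideal.span ({a - a', b - b'} : Set R) := by
    obtain ⟨u, hu⟩ := Polynomial.sub_dvd_eval_sub (C b) (C b') Ψ
    have : Ψ.evalEval a' b - Ψ.evalEval a' b' = (b - b') * u.eval a' := by
      simp only [Polynomial.evalEval]
      rw [← Polynomial.eval_sub, hu, Polynomial.eval_mul, Polynomial.eval_sub,
        Polynomial.eval_C, Polynomial.eval_C]
    rw [this]
    exact Ideal.mul_mem_right _ _ (Ideal.subset_span (by simp))
  have : Ψ.evalEval a b - Ψ.evalEval a' b' =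
      (Ψ.evalEval a b - Ψ.evalEval a' b) + (Ψ.evalEval a' b - Ψ.evalEval a' b') := by ring
  rw [this]
  exact Ideal.add_mem _ h1 h2

/-- **Contraction lemma (uniqueness on a supersingular tube).** -/
theorem ssc_unique (J : Ideal R) (hJ : J ≤ Ideal.jacobson ⊥) (n : ℕ) (hn : (n : R) ∈ J)
    (c : R) (hc : c ∈ J) (Ψ : R[X][Y]) {a b a' b' : R} (haa : a - a' ∈ J)
    (hX : b - a ^ n = b' - a' ^ n)
    (hY : a - b ^ n = c * Ψ.evalEval a b) (hY' : a' - b' ^ n = c * Ψ.evalEval a' b') :
    a = a' ∧ b = b' := by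
  obtain ⟨s, hs, hsmem⟩ := ssc_pow_sub_pow a a' n
  -- `s ∈ J`
  have hsJ : s ∈ J := by
    have h1 : s - (n : R) * a' ^ (n - 1) ∈ J := by
      have hle : Ideal.span ({a - a'} : Set R) ≤ J := by
        rw [Ideal.span_le]
        rintro _ rfl
        exact haa
      exact hle hsmem
    have h2 : (n : R) * a' ^ (n - 1) ∈ J := Ideal.mul_mem_right _ _ hn
    have : s = (s - (n : R) * a' ^ (n - 1)) + (n : R) * a' ^ (n - 1) := by ring
    rw [this]
    exact Ideal.add_mem _ h1 h2
  -- `b - b' = (a - a') * s`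
  have hbb : b - b' = (a - a') * s := by
    rw [← hs]
    linear_combination hX
  -- `b ^ n - b' ^ n = (b - b') * s'`
  obtain ⟨s', hs', -⟩ := ssc_pow_sub_pow b b' n
  -- `Ψ(a,b) - Ψ(a',b') = (a - a') * t`
  have hΨ : ∃ t : R, Ψ.evalEval a b - Ψ.evalEval a' b' = (a - a') * t := by
    have hmem := ssc_evalEval_sub_mem Ψ a b a' b'
    have hle : Ideal.span ({a - a', b - b'} : Set R) ≤ Ideal.span ({a - a'} : Set R) := by
      rw [Ideal.span_le]
      rintro x hx
      rcases hx with rfl | hx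
      · exact Ideal.subset_span rfl
      · rw [Set.mem_singleton_iff] at hx
        rw [hx, hbb]
        exact Ideal.mul_mem_right _ _ (Ideal.subset_span rfl)
    obtain ⟨t, ht⟩ := Ideal.mem_span_singleton'.mp (hle hmem)
    exact ⟨t, by rw [← ht, mul_comm]⟩
  obtain ⟨t, ht⟩ := hΨ
  -- `a - a' = (a - a') * m` with `m ∈ J`
  have key : a - a' = (a - a') * (c * t + s * s') := by
    have e1 : a - a' = c * (Ψ.evalEval a b - Ψ.evalEval a' b') + (b ^ n - b' ^ n) := by
      linear_combination hY - hY'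
    linear_combination e1 + c * ht + hs' + s' * hbb
  have hm : c * t + s * s' ∈ J :=
    Ideal.add_mem _ (Ideal.mul_mem_right _ _ hc) (Ideal.mul_mem_right _ _ hsJ)
  have hunit : IsUnit (-(c * t + s * s') * 1 + 1) :=
    (Ideal.mem_jacobson_bot.mp (hJ (J.neg_mem hm))) 1
  have hzero : (a - a') * (-(c * t + s * s') * 1 + 1) = 0 := by
    linear_combination key
  have ha : a - a' = 0 := by
    obtain ⟨u, hu⟩ := hunit
    have := congrArg (· * (↑u⁻¹ : R)) hzero
    simp only [zero_mul] at this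
    rw [← hu, mul_assoc, Units.mul_inv, mul_one] at this
    exact this
  have ha' : a = a' := sub_eq_zero.mp ha
  refine ⟨ha', ?_⟩
  have : b - b' = 0 := by rw [hbb, ha, zero_mul]
  exact sub_eq_zero.mp this

/-- The same in a local ring, with `J` the maximal ideal. -/
theorem ssc_unique_local [IsLocalRing R] (n : ℕ) (hn : (n : R) ∈ IsLocalRing.maximalIdeal R)
    (c : R) (hc : c ∈ IsLocalRing.maximalIdeal R) (Ψ : R[X][Y]) {a b a' b' : R}
    (haa : a - a' ∈ IsLocalRing.maximalIdeal R)
    (hX : b - a ^ n = b' - a' ^ n)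
    (hY : a - b ^ n = c * Ψ.evalEval a b) (hY' : a' - b' ^ n = c * Ψ.evalEval a' b') :
    a = a' ∧ b = b' :=
  ssc_unique (IsLocalRing.maximalIdeal R)
    (le_of_eq (IsLocalRing.jacobson_eq_maximalIdeal ⊥ bot_ne_top).symm) n hn c hc Ψ haa hX hY hY'

/-- Version for a polynomial with integer coefficients (the modular equation lives over `ℤ`)
and points of a local ring `R` (for instance a valuation subring): `Ψ` is mapped to `R`. -/
theorem ssc_unique_int [IsLocalRing R] (n : ℕ) (hn : (n : R) ∈ IsLocalRing.maximalIdeal R)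
    (c : R) (hc : c ∈ IsLocalRing.maximalIdeal R) (Ψ : ℤ[X][Y]) {a b a' b' : R}
    (haa : a - a' ∈ IsLocalRing.maximalIdeal R)
    (hX : b - a ^ n = b' - a' ^ n)
    (hY : a - b ^ n = c * (Ψ.map (mapRingHom (Int.castRingHom R))).evalEval a b)
    (hY' : a' - b' ^ n = c * (Ψ.map (mapRingHom (Int.castRingHom R))).evalEval a' b') :
    a = a' ∧ b = b' :=
  ssc_unique_local n hn c hc _ haa hX hY hY'

/-- Cancelling `ξ` (`= b - a ^ n` in the application): in a domain, the curve equation `ξ * (a - b ^ n) = q * Ψ(a, b)`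
with `q = c * ξ`, `ξ ≠ 0`, gives the hypothesis `a - b ^ n = c * Ψ(a, b)` of `ssc_unique`. -/
theorem ssc_cancel [IsDomain R] (Ψ : R[X][Y]) {a b q c ξ : R} (n : ℕ) (hξ0 : ξ ≠ 0)
    (hq : q = c * ξ) (h : ξ * (a - b ^ n) = q * Ψ.evalEval a b) :
    a - b ^ n = c * Ψ.evalEval a b := by
  have : ξ * (a - b ^ n) = ξ * (c * Ψ.evalEval a b) := by rw [h, hq]; ring
  exact mul_left_cancel₀ hξ0 this

/-- **Injectivity of the coordinate `X = H_q - H ^ n` on a supersingular tube**, domain form.
`R` a local domain (valuation ring of the field of definition of the points), `q = c * ξ` with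
`c` in the maximal ideal (`|q| < |ξ|`). -/
theorem ssc_tube_injective [IsDomain R] [IsLocalRing R] (n : ℕ)
    (hn : (n : R) ∈ IsLocalRing.maximalIdeal R) (q c : R)
    (hc : c ∈ IsLocalRing.maximalIdeal R) (Ψ : R[X][Y]) {a b a' b' : R}
    (haa : a - a' ∈ IsLocalRing.maximalIdeal R)
    (hX : b - a ^ n = b' - a' ^ n) (hξ0 : b - a ^ n ≠ 0) (hq : q = c * (b - a ^ n))
    (hY : (b - a ^ n) * (a - b ^ n) = q * Ψ.evalEval a b)
    (hY' : (b' - a' ^ n) * (a' - b' ^ n) = q * Ψ.evalEval a' b') :
    a = a' ∧ b = b' := by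
  have h1 := ssc_cancel Ψ n hξ0 hq hY
  have hξ0' : b' - a' ^ n ≠ 0 := hX ▸ hξ0
  have hq' : q = c * (b' - a' ^ n) := hX ▸ hq
  have h2 := ssc_cancel Ψ n hξ0' hq' hY'
  exact ssc_unique_local n hn c hc Ψ haa hX h1 h2

end Fermat.Agent.H45
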