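import Fermat.Agent.H3.FrobInterfaces
import Fermat.Agent.H62.IdealZeta
import Fermat.Agent.H15.S14Neg

/-!
# FROB-A (helper45): the degree-one prime zeta sum has a logarithmic singularity at `s = 1`

`Fermat.Agent.H45.degOneSum : Fermat.Agent.H3.Frob.DegOneSumStatement`.

Proof: `exp (P s) ≤ ζ_F s ≤ exp (P s + 2 P 2)` and `(s - 1) ζ_F s ∈ [res / 2, 2 res]` near `1`
(landed `Fermat.Agent.H62.IdealZeta`), so `P s = log (1 / (s - 1)) + O(1)` for the full prime
zeta sum `P`; the primes of non-prime norm contribute `O(1)` (landed `Fermat.Agent.H15.S14Neg`),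
and so do the finitely many primes of norm in `T`; finally the sum over the remaining primes is
regrouped along the fibres of the absolute norm.
-/

set_option autoImplicit false

noncomputable section

namespace Fermat.Agent.H45

open NumberField IsDedekindDomain Ideal Filter Topology
open Fermat.Agent.H3.Frob Fermat.Agent.H62

universe u

/-! ### Regrouping a nonnegative sum along the fibres of a map to `ℕ` -/

/-- Reindexing a summable sum of `φ ∘ g` along the finite fibres of `g : α → ℕ` (`φ ≥ 0`). -/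
theorem frobA_regroup {α : Type*} (g : α → ℕ) (hfin : ∀ k, Finite {a // g a = k})
    (φ : ℕ → ℝ) (hφ : ∀ k, 0 ≤ φ k) (hsum : Summable fun a ↦ φ (g a)) :
    Summable (fun k ↦ (Nat.card {a // g a = k} : ℝ) * φ k) ∧
      ∑' a, φ (g a) = ∑' k, (Nat.card {a // g a = k} : ℝ) * φ k := by
  classical
  let e : (Σ k : ℕ, {a // g a = k}) ≃ α := Equiv.sigmaFiberEquiv g
  have hfib : ∀ k : ℕ, ∑' a : {a // g a = k}, φ (g (e ⟨k, a⟩)) =
      (Nat.card {a // g a = k} : ℝ) * φ k := by
    intro k
    have : ∀ a : {a // g a = k}, φ (g (e ⟨k, a⟩)) = φ k := by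
      intro a
      have : g (e ⟨k, a⟩) = k := a.2
      rw [this]
    simp_rw [this]
    have := hfin k
    letI := Fintype.ofFinite {a // g a = k}
    rw [tsum_fintype, Finset.sum_const, Finset.card_univ, Nat.card_eq_fintype_card, nsmul_eq_mul]
  have hS : Summable (fun x : (Σ k : ℕ, {a // g a = k}) ↦ φ (g (e x))) :=
    (e.summable_iff (f := fun a ↦ φ (g a))).mpr hsum
  have hS2 := ((summable_sigma_of_nonneg (fun x ↦ hφ _)).mp hS).2
  refine ⟨?_, ?_⟩
  · simpa only [hfib] using hS2
  · rw [← e.tsum_eq (fun a ↦ φ (g a)), hS.tsum_sigma' (fun k ↦ ?_)]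
    · exact tsum_congr hfib
    · have := hfin k
      exact Summable.of_finite

variable (F : Type u) [Field F] [NumberField F]

/-! ### Finiteness -/

/-- The fibres of the absolute norm on the primes of `F` are finite. -/
lemma frobA_finite_fiber (k : ℕ) :
    Finite {v : HeightOneSpectrum (𝓞 F) // absNorm v.asIdeal = k} := by
  have h : {I : Ideal (𝓞 F) | absNorm I = k}.Finite := Ideal.finite_setOfPred_absNorm_eq k
  have := h.to_subtype
  refine Finite.of_injective
    (fun v : {v : HeightOneSpectrum (𝓞 F) // absNorm v.asIdeal = k} =>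
      (⟨v.1.asIdeal, v.2⟩ : {I : Ideal (𝓞 F) | absNorm I = k})) ?_
  intro v w hvw
  have h1 : v.1.asIdeal = w.1.asIdeal := congrArg Subtype.val hvw
  exact Subtype.ext (HeightOneSpectrum.ext h1)

/-- The set of primes of `F` with norm in a finite set is finite. -/
lemma frobA_finite_norm_mem (T : Finset ℕ) :
    {v : HeightOneSpectrum (𝓞 F) | absNorm v.asIdeal ∈ T}.Finite := by
  have h : {v : HeightOneSpectrum (𝓞 F) | absNorm v.asIdeal ∈ T} =
      ⋃ k ∈ T, {v : HeightOneSpectrum (𝓞 F) | absNorm v.asIdeal = k} := by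
    ext v
    simp
  rw [h]
  refine Set.Finite.biUnion T.finite_toSet fun k _ => ?_
  exact Set.finite_coe_iff.mp (frobA_finite_fiber F k)

/-! ### The good part of the prime zeta sum -/

/-- `ℓ ^ (-s)` on the good prime numbers, `0` elsewhere. -/
def frobAPhi (T : Finset ℕ) (s : ℝ) (ℓ : ℕ) : ℝ :=
  if ℓ.Prime ∧ ℓ ∉ T then (ℓ : ℝ) ^ (-s) else 0

lemma frobAPhi_nonneg (T : Finset ℕ) (s : ℝ) (ℓ : ℕ) : 0 ≤ frobAPhi T s ℓ := by
  unfold frobAPhi
  split_ifs
  · exact Real.rpow_nonneg (Nat.cast_nonneg _) _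
  · exact le_rfl

lemma frobA_degOneTerm_eq (T : Finset ℕ) (s : ℝ) (ℓ : ℕ) :
    degOneTerm F T s ℓ =
      (Nat.card {v : HeightOneSpectrum (𝓞 F) // absNorm v.asIdeal = ℓ} : ℝ) * frobAPhi T s ℓ := by
  unfold degOneTerm degOneCount frobAPhi
  split_ifs <;> simp

lemma frobAPhi_comp_le (T : Finset ℕ) (s : ℝ) (v : HeightOneSpectrum (𝓞 F)) :
    frobAPhi T s (absNorm v.asIdeal) ≤ primeTerm F s v := by
  unfold frobAPhi
  split_ifs
  · exact le_rfl
  · exact (primeTerm_pos F s v).le

lemma frobA_summable_good (T : Finset ℕ) {s : ℝ} (hs : 1 < s) :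
    Summable (fun v : HeightOneSpectrum (𝓞 F) => frobAPhi T s (absNorm v.asIdeal)) :=
  Summable.of_nonneg_of_le (fun _ => frobAPhi_nonneg T s _) (fun v => frobAPhi_comp_le F T s v)
    (summable_primeTerm F hs)

/-! ### The bad part -/

/-- `1 / N(v)` on the bad primes (norm not a prime number, or norm in `T`), `0` elsewhere. -/
def frobAChi (T : Finset ℕ) (v : HeightOneSpectrum (𝓞 F)) : ℝ :=
  if (absNorm v.asIdeal).Prime ∧ absNorm v.asIdeal ∉ T then 0 else ((absNorm v.asIdeal : ℝ))⁻¹

lemma frobAChi_nonneg (T : Finset ℕ) (v : HeightOneSpectrum (𝓞 F)) : 0 ≤ frobAChi F T v := by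
  unfold frobAChi
  split_ifs
  · exact le_rfl
  · exact inv_nonneg.mpr (Nat.cast_nonneg _)

lemma frobA_summable_chi (T : Finset ℕ) : Summable (frobAChi F T) := by
  classical
  set inv : HeightOneSpectrum (𝓞 F) → ℝ := fun v => ((absNorm v.asIdeal : ℝ))⁻¹ with hinv
  set A : Set (HeightOneSpectrum (𝓞 F)) :=
    {v | ¬ (absNorm v.asIdeal).Prime ∨ absNorm v.asIdeal = 0} with hA
  set Fi : Set (HeightOneSpectrum (𝓞 F)) := {v | absNorm v.asIdeal ∈ T} with hFi
  have h1 : Summable (A.indicator inv) := by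
    have h := Fermat.Agent.H15.summable_inv_absNorm_not_degOne F 0
    exact (summable_subtype_iff_indicator (s := A) (f := inv)).mp h
  have h2 : Summable (Fi.indicator inv) :=
    summable_of_hasFiniteSupport ((frobA_finite_norm_mem F T).subset
      (fun v hv => by
        by_contra hvF
        exact hv (Set.indicator_of_notMem hvF _)))
  have hinv0 : ∀ v, 0 ≤ inv v := fun v => inv_nonneg.mpr (Nat.cast_nonneg _)
  refine Summable.of_nonneg_of_le (fun v => frobAChi_nonneg F T v) (fun v => ?_) (h1.add h2)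
  have hA0 : 0 ≤ A.indicator inv v := Set.indicator_nonneg (fun w _ => hinv0 w) v
  have hF0 : 0 ≤ Fi.indicator inv v := Set.indicator_nonneg (fun w _ => hinv0 w) v
  unfold frobAChi
  split_ifs with hgood
  · exact add_nonneg hA0 hF0
  · rw [not_and_or, not_not] at hgood
    rcases hgood with h | h
    · have : A.indicator inv v = inv v := Set.indicator_of_mem (show v ∈ A from Or.inl h) inv
      linarith
    · have : Fi.indicator inv v = inv v := Set.indicator_of_mem (show v ∈ Fi from h) inv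
      linarith

lemma frobA_primeTerm_le (T : Finset ℕ) {s : ℝ} (hs : 1 ≤ s) (v : HeightOneSpectrum (𝓞 F)) :
    primeTerm F s v ≤ frobAPhi T s (absNorm v.asIdeal) + frobAChi F T v := by
  unfold frobAPhi frobAChi
  split_ifs with h
  · rw [add_zero]; exact le_rfl
  · rw [zero_add]
    have := primeTerm_anti F hs v
    rwa [primeTerm, primeTerm, Real.rpow_neg_one] at this

/-! ### The main statement -/

/-- **FROB-A**: the degree-one prime zeta sum of a number field, away from a finite set of
primes, is `log (1 / (s - 1)) + O(1)` as `s → 1⁺`. -/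
theorem degOneSum : DegOneSumStatement.{u} := by
  intro F _ _ T
  have hr := dedekindZeta_residue_pos F
  set r := dedekindZeta_residue F with hrdef
  -- explicit neighbourhood
  obtain ⟨ε, hε, hb⟩ : ∃ ε : ℝ, 0 < ε ∧ ∀ s : ℝ, 1 < s → s < 1 + ε →
      r / 2 ≤ (s - 1) * idealZeta F s ∧ (s - 1) * idealZeta F s ≤ 2 * r := by
    have h := eventually_idealZeta_bounds F
    rw [eventually_nhdsWithin_iff] at h
    obtain ⟨ε, hε, hb⟩ := Metric.eventually_nhds_iff.mp h
    refine ⟨ε, hε, fun s h1 h2 => hb ?_ h1⟩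
    rw [Real.dist_eq, abs_of_pos (by linarith)]
    linarith
  set P2 := primeZetaSum F 2 with hP2
  have hP2nn : 0 ≤ P2 := primeZetaSum_nonneg F 2
  set Cbad := ∑' v, frobAChi F T v with hCbad
  have hCbadnn : 0 ≤ Cbad := tsum_nonneg (fun v => frobAChi_nonneg F T v)
  refine ⟨|Real.log (2 * r)| + |Real.log (r / 2)| + 2 * P2 + Cbad, ε, hε, fun s hs1 hs2 => ?_⟩
  have ht : 0 < s - 1 := by linarith
  obtain ⟨hz1, hz2⟩ := hb s hs1 hs2
  have hz : 0 < idealZeta F s := idealZeta_pos F hs1
  -- regrouping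
  have hgood := frobA_summable_good F T hs1
  obtain ⟨hsum, heq⟩ := frobA_regroup (fun v : HeightOneSpectrum (𝓞 F) => absNorm v.asIdeal)
    (frobA_finite_fiber F) (frobAPhi T s) (frobAPhi_nonneg T s) hgood
  have hterm : (fun ℓ => degOneTerm F T s ℓ) =
      fun k => (Nat.card {v : HeightOneSpectrum (𝓞 F) // absNorm v.asIdeal = k} : ℝ) *
        frobAPhi T s k := funext fun ℓ => frobA_degOneTerm_eq F T s ℓ
  have hSum : Summable (degOneTerm F T s) := by
    change Summable (fun ℓ => degOneTerm F T s ℓ)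
    rw [hterm]; exact hsum
  refine ⟨hSum, ?_⟩
  have hval : ∑' ℓ : ℕ, degOneTerm F T s ℓ =
      ∑' v : HeightOneSpectrum (𝓞 F), frobAPhi T s (absNorm v.asIdeal) := by
    rw [heq, hterm]
  rw [hval]
  set G := ∑' v : HeightOneSpectrum (𝓞 F), frobAPhi T s (absNorm v.asIdeal) with hG
  set PZ := primeZetaSum F s with hPZ
  -- `G ≤ PZ ≤ G + Cbad`
  have hGle : G ≤ PZ :=
    Summable.tsum_le_tsum (fun v => frobAPhi_comp_le F T s v) hgood (summable_primeTerm F hs1)
  have hPZle : PZ ≤ G + Cbad := by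
    rw [hG, hCbad, ← (hgood.tsum_add (frobA_summable_chi F T))]
    exact Summable.tsum_le_tsum (fun v => frobA_primeTerm_le F T hs1.le v)
      (summable_primeTerm F hs1) (hgood.add (frobA_summable_chi F T))
  -- `PZ` versus `log (1 / (s - 1))`
  have hlogt : Real.log (1 / (s - 1)) = - Real.log (s - 1) := by
    rw [one_div, Real.log_inv]
  have hup : PZ ≤ Real.log (2 * r) + Real.log (1 / (s - 1)) := by
    have h1 : PZ ≤ Real.log (idealZeta F s) :=
      (Real.le_log_iff_exp_le hz).mpr (exp_primeZetaSum_le F hs1)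
    have h2 : idealZeta F s ≤ 2 * r / (s - 1) := by
      rw [le_div_iff₀ ht, mul_comm]; exact hz2
    have h3 : Real.log (idealZeta F s) ≤ Real.log (2 * r / (s - 1)) := Real.log_le_log hz h2
    have h4 : Real.log (2 * r / (s - 1)) = Real.log (2 * r) + Real.log (1 / (s - 1)) := by
      rw [hlogt, Real.log_div (by positivity) ht.ne']; ring
    linarith
  have hlow : Real.log (r / 2) + Real.log (1 / (s - 1)) - 2 * P2 ≤ PZ := by
    have h1 : Real.log (idealZeta F s) ≤ PZ + 2 * P2 :=
      (Real.log_le_iff_le_exp hz).mpr (idealZeta_le_exp F hs1)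
    have h2 : r / 2 / (s - 1) ≤ idealZeta F s := by
      rw [div_le_iff₀ ht, mul_comm]; exact hz1
    have h3 : Real.log (r / 2 / (s - 1)) ≤ Real.log (idealZeta F s) :=
      Real.log_le_log (by positivity) h2
    have h4 : Real.log (r / 2 / (s - 1)) = Real.log (r / 2) + Real.log (1 / (s - 1)) := by
      rw [hlogt, Real.log_div (by positivity) ht.ne']; ring
    linarith
  have ha1 := le_abs_self (Real.log (2 * r))
  have ha2 := neg_abs_le (Real.log (r / 2))
  have ha3 := abs_nonneg (Real.log (2 * r))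
  have ha4 := abs_nonneg (Real.log (r / 2))
  rw [abs_le]
  constructor <;> linarith

end Fermat.Agent.H45
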