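import Fermat.Agent.H67.KLConn

/-!
# P-SS : the abstract semistable key lemma KL-SS (helper45)

Mathlib + the landed connectedness lemma `Fermat.Agent.H67.KLConn.connected_of_prime` only.

Setting (see findings "P-SS DESIGN INPUT (helper45)").  `A` is a DVR (any noetherian ring with a
prime element `π` will do), `E = F(w)` the Kummer extension, `Rf`, `Ri` the two charts of `E`
(integral closures of `A[x]`, `A[1/x]`), `O` the ring of elements of `E` which are integral at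
all Gauss valuations (so `Rf = O ∩ {no finite poles}`: `π`-SATURATION of the charts in `O`),
`Sf ≤ Rf`, `Si ≤ Ri` the charts of the base field `F`.

* `klss_idem_sq` : if `w ^ r ≡ 1` modulo `π O` then `ε := u * ∑_{i<r} (s w) ^ i`
  (`r u = 1`, `s ^ r = 1`) is idempotent modulo `π O`.
* `klss_local_lift` : LOCAL LIFT.  At a prime `𝔪` of `Sf`: if `H ≡ 1` modulo `π O` and
  `b₁ * (w / H) ^ r ∈ Sf` for some `b₁ ∉ 𝔪` (i.e. `g / H ^ r`, `g = w ^ r`, has no pole centred at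
  `𝔪`), then `β ε` is congruent modulo `π O` to an element of `Rf`, for some `β ∈ Sf \ 𝔪`.
* `klss_glue` : GLUING.  Local lifts at all maximal ideals of `Sf` containing `π` give a global
  `a ∈ Rf` with `a ≡ ε` modulo `π O`.
* `klss_main` : with local lifts on both charts, `ε ≡ 0` or `ε ≡ 1` modulo `π O`
  (so the Kummer idempotent is trivial: all Gauss valuations of `E` see the same root of unity,
  and `w ∈ F`).

No normality of the special fibre, no description of local rings, no Riemann-Roch.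
-/

set_option autoImplicit false

namespace Fermat.Agent.H45

open Fermat.Agent.H67.KLConn

variable {A E : Type*} [CommRing A] [CommRing E] [Algebra A E]

/-- The Kummer idempotent `u * ∑_{i<r} (s w) ^ i`. -/
noncomputable def klssIdem (r : ℕ) (u s : A) (w : E) : E :=
  u • ∑ i ∈ Finset.range r, (s • w) ^ i

theorem klssIdem_mem (O : Subalgebra A E) (r : ℕ) (u s : A) {w : E} (hw : w ∈ O) :
    klssIdem r u s w ∈ O :=
  O.smul_mem (O.sum_mem fun _ _ => O.pow_mem (O.smul_mem hw s) _) u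

/-- `(s w - 1) * ε = u (w ^ r - 1)`. -/
theorem klssIdem_mul (r : ℕ) (u s : A) (hs : s ^ r = 1) (w : E) :
    (s • w - 1) * klssIdem r u s w = u • (w ^ r - 1) := by
  unfold klssIdem
  rw [mul_smul_comm, mul_comm, geom_sum_mul, smul_pow, hs, one_smul]

/-- `ε` is idempotent modulo `π O` as soon as `w ^ r ≡ 1`. -/
theorem klss_idem_sq (π : A) (O : Subalgebra A E) (r : ℕ) (u s : A) (hru : (r : A) * u = 1)
    (hs : s ^ r = 1) {w : E} (hw : w ∈ O) (hwr : PiDvd π O 1 (w ^ r - 1)) :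
    PiDvd π O 1 (klssIdem r u s w ^ 2 - klssIdem r u s w) := by
  set ε := klssIdem r u s w with hε
  have hεO : ε ∈ O := klssIdem_mem O r u s hw
  have hswO : s • w ∈ O := O.smul_mem hw s
  -- `(s w) * ε ≡ ε`
  have h1 : PiDvd π O 1 ((s • w) * ε - ε) := by
    have e : (s • w) * ε - ε = u • (w ^ r - 1) := by
      rw [← klssIdem_mul r u s hs w]; ring
    rw [e]
    obtain ⟨c, hc, hcz⟩ := hwr
    exact ⟨u • c, O.smul_mem hc u, by rw [hcz, smul_comm]⟩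
  -- `(s w) ^ i * ε ≡ ε`
  have h2 : ∀ i : ℕ, PiDvd π O 1 ((s • w) ^ i * ε - ε) := by
    intro i
    induction i with
    | zero => exact ⟨0, O.zero_mem, by simp⟩
    | succ k ih =>
      have e : (s • w) ^ (k + 1) * ε - ε =
          (s • w) ^ k * ((s • w) * ε - ε) + ((s • w) ^ k * ε - ε) := by ring
      rw [e]
      exact (h1.mul_left (O.pow_mem hswO k)).add ih
  -- sum up
  have h3 : PiDvd π O 1 ((∑ i ∈ Finset.range r, (s • w) ^ i) * ε - (r : A) • ε) := by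
    have e : (∑ i ∈ Finset.range r, (s • w) ^ i) * ε - (r : A) • ε =
        ∑ i ∈ Finset.range r, ((s • w) ^ i * ε - ε) := by
      rw [Finset.sum_sub_distrib, Finset.sum_mul, Finset.sum_const, Finset.card_range,
        Nat.cast_smul_eq_nsmul]
    rw [e]
    refine Finset.sum_induction _ (fun z => PiDvd π O 1 z) (fun _ _ h h' => h.add h')
      ⟨0, O.zero_mem, by simp⟩ fun i _ => h2 i
  have e : ε ^ 2 - ε = u • ((∑ i ∈ Finset.range r, (s • w) ^ i) * ε - (r : A) • ε) := by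
    rw [smul_sub, smul_smul, mul_comm u, hru, one_smul, sq]
    congr 1
    rw [hε, klssIdem, smul_mul_assoc]
  rw [e]
  obtain ⟨c, hc, hcz⟩ := h3
  exact ⟨u • c, O.smul_mem hc u, by rw [hcz, smul_comm]⟩

/-- **Local lift.**  `H⁻¹ ≡ 1` modulo `π O`, and `b₁ (w H⁻¹) ^ r ∈ Sf` with `b₁ ∉ 𝔪`. -/
theorem klss_local_lift (π : A) (Rf O Sf : Subalgebra A E) (hRfO : Rf ≤ O) (hSf : Sf ≤ Rf)
    (r : ℕ) (hr : 0 < r) (u s : A) {w : E} (hw : w ∈ O)
    (hint : ∀ z : E, z ^ r ∈ Sf → z ∈ Rf)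
    (𝔪 : Ideal Sf) [𝔪.IsPrime]
    (Hinv : E) (hHO : Hinv ∈ O) (hH1 : PiDvd π O 1 (Hinv - 1))
    (b₁ : Sf) (hb₁ : b₁ ∉ 𝔪) (hγ : (b₁ : E) * (w * Hinv) ^ r ∈ Sf) :
    ∃ β : Sf, β ∉ 𝔪 ∧ ∃ a ∈ Rf, PiDvd π O 1 (a - (β : E) * klssIdem r u s w) := by
  have hb₁Rf : (b₁ : E) ∈ Rf := hSf b₁.2
  have hb₁O : (b₁ : E) ∈ O := hRfO hb₁Rf
  set z : E := (b₁ : E) * (w * Hinv) with hz
  have hzr : z ^ r ∈ Sf := by
    have e : z ^ r = (b₁ : E) ^ (r - 1) * ((b₁ : E) * (w * Hinv) ^ r) := by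
      rw [hz, mul_pow]
      obtain ⟨k, rfl⟩ : ∃ k, r = k + 1 := ⟨r - 1, by omega⟩
      rw [Nat.add_sub_cancel, pow_succ]
      ring
    rw [e]
    exact Sf.mul_mem (Sf.pow_mem b₁.2 _) hγ
  have hzRf : z ∈ Rf := hint z hzr
  refine ⟨b₁ ^ (r - 1), fun h => hb₁ (Ideal.IsPrime.mem_of_pow_mem inferInstance _ h), ?_⟩
  refine ⟨u • ∑ i ∈ Finset.range r, (b₁ : E) ^ (r - 1 - i) * (s • z) ^ i, ?_, ?_⟩
  · exact Rf.smul_mem (Rf.sum_mem fun i _ =>
      Rf.mul_mem (Rf.pow_mem hb₁Rf _) (Rf.pow_mem (Rf.smul_mem hzRf s) _)) u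
  · -- termwise congruence
    have hHi : ∀ i : ℕ, PiDvd π O 1 (Hinv ^ i - 1) := by
      intro i
      induction i with
      | zero => exact ⟨0, O.zero_mem, by simp⟩
      | succ k ih =>
        have e : Hinv ^ (k + 1) - 1 = Hinv ^ k * (Hinv - 1) + (Hinv ^ k - 1) := by ring
        rw [e]
        exact (hH1.mul_left (O.pow_mem hHO k)).add ih
    have hterm : ∀ i ∈ Finset.range r,
        PiDvd π O 1 ((b₁ : E) ^ (r - 1 - i) * (s • z) ^ i - (b₁ : E) ^ (r - 1) * (s • w) ^ i) := by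
      intro i hi
      have hi' := Finset.mem_range.mp hi
      have e : (b₁ : E) ^ (r - 1 - i) * (s • z) ^ i - (b₁ : E) ^ (r - 1) * (s • w) ^ i =
          ((b₁ : E) ^ (r - 1) * (s • w) ^ i) * (Hinv ^ i - 1) := by
        have hsplit : (b₁ : E) ^ (r - 1) = (b₁ : E) ^ (r - 1 - i) * (b₁ : E) ^ i := by
          rw [← pow_add]; congr 1; omega
        rw [hsplit, hz, smul_pow, smul_pow, mul_pow, mul_pow]
        simp only [Algebra.smul_def]
        ring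
      rw [e]
      exact (hHi i).mul_left (O.mul_mem (O.pow_mem hb₁O _) (O.pow_mem (O.smul_mem hw s) _))
    have hsum : PiDvd π O 1 (∑ i ∈ Finset.range r,
        ((b₁ : E) ^ (r - 1 - i) * (s • z) ^ i - (b₁ : E) ^ (r - 1) * (s • w) ^ i)) :=
      Finset.sum_induction _ (fun z => PiDvd π O 1 z) (fun _ _ h h' => h.add h')
        ⟨0, O.zero_mem, by simp⟩ hterm
    have e : u • ∑ i ∈ Finset.range r, (b₁ : E) ^ (r - 1 - i) * (s • z) ^ i
        - ((b₁ ^ (r - 1) : Sf) : E) * klssIdem r u s w =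
        u • ∑ i ∈ Finset.range r,
          ((b₁ : E) ^ (r - 1 - i) * (s • z) ^ i - (b₁ : E) ^ (r - 1) * (s • w) ^ i) := by
      rw [Finset.sum_sub_distrib, smul_sub, klssIdem, mul_smul_comm, Finset.mul_sum]
      simp
    rw [e]
    obtain ⟨c, hc, hcz⟩ := hsum
    exact ⟨u • c, O.smul_mem hc u, by rw [hcz, smul_comm]⟩

/-- **Gluing.**  Local lifts at all maximal ideals of `Sf` containing `π` give a global lift. -/
theorem klss_glue (π : A) (Rf O Sf : Subalgebra A E) (hRfO : Rf ≤ O) (hSf : Sf ≤ Rf)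
    {ε : E} (hε : ε ∈ O)
    (hloc : ∀ 𝔪 : Ideal Sf, 𝔪.IsMaximal → algebraMap A Sf π ∈ 𝔪 →
      ∃ β : Sf, β ∉ 𝔪 ∧ ∃ a ∈ Rf, PiDvd π O 1 (a - (β : E) * ε)) :
    ∃ a ∈ Rf, PiDvd π O 1 (a - ε) := by
  classical
  let I : Ideal Sf :=
    { carrier := {β | ∃ a ∈ Rf, PiDvd π O 1 (a - (β : E) * ε)}
      zero_mem' := ⟨0, Rf.zero_mem, ⟨0, O.zero_mem, by simp⟩⟩
      add_mem' := by
        rintro β β' ⟨a, ha, h⟩ ⟨a', ha', h'⟩
        refine ⟨a + a', Rf.add_mem ha ha', ?_⟩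
        have e : a + a' - ((β + β' : Sf) : E) * ε = (a - (β : E) * ε) + (a' - (β' : E) * ε) := by
          push_cast; ring
        rw [e]
        exact h.add h'
      smul_mem' := by
        rintro c β ⟨a, ha, h⟩
        refine ⟨(c : E) * a, Rf.mul_mem (hSf c.2) ha, ?_⟩
        have e : (c : E) * a - ((c • β : Sf) : E) * ε = (c : E) * (a - (β : E) * ε) := by
          rw [smul_eq_mul]; push_cast; ring
        rw [e]
        exact h.mul_left (hRfO (hSf c.2)) }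
  have hπI : algebraMap A Sf π ∈ I := by
    refine ⟨0, Rf.zero_mem, ⟨-ε, O.neg_mem hε, ?_⟩⟩
    rw [pow_one, smul_neg, zero_sub, Algebra.smul_def]
    rfl
  have htop : I = ⊤ := by
    by_contra hne
    obtain ⟨𝔪, hmax, hle⟩ := Ideal.exists_le_maximal I hne
    obtain ⟨β, hβ, hβI⟩ := hloc 𝔪 hmax (hle hπI)
    exact hβ (hle hβI)
  have h1 : (1 : Sf) ∈ I := by rw [htop]; exact Submodule.mem_top
  obtain ⟨a, ha, h⟩ := h1
  refine ⟨a, ha, ?_⟩
  simpa using h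

/-- **KL-SS, abstract form.**  Two charts `Rf`, `Ri` of `E` satisfying the hypotheses of
KL-CONN and `π`-saturated in the Gauss ring `O`; an element `ε ∈ O`, idempotent modulo `π O`,
which can be lifted locally at every maximal ideal (containing `π`) of the base charts
`Sf`, `Si`.  Then `ε ≡ 0` or `ε ≡ 1` modulo `π O`. -/
theorem klss_main [IsNoetherianRing A] {π : A} (hπ : Prime π) {x y : E} (hxy : x * y = 1)
    (Rf Ri : Subalgebra A E) (hx : x ∈ Rf) (hy : y ∈ Ri)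
    (hgen : ∃ s : Finset E, (∀ b ∈ s, b ∈ Rf) ∧
      ∀ r ∈ Rf, ∃ p : E → Polynomial A, r = ∑ b ∈ s, Polynomial.aeval x (p b) * b)
    (hmid_f : ∀ r ∈ Rf, ∃ k : ℕ, y ^ k * r ∈ Ri)
    (hmid_i : ∀ r ∈ Ri, ∃ k : ℕ, x ^ k * r ∈ Rf)
    (hcap : ∀ z, z ∈ Rf → z ∈ Ri → ∃ α : A, algebraMap A E α = z)
    (hsat : ∀ α : A, PiDvd π Rf 1 (algebraMap A E α) → π ∣ α)
    (O : Subalgebra A E) (hRfO : Rf ≤ O) (hRiO : Ri ≤ O)
    (hsatf : ∀ z ∈ Rf, PiDvd π O 1 z → PiDvd π Rf 1 z)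
    (hsati : ∀ z ∈ Ri, PiDvd π O 1 z → PiDvd π Ri 1 z)
    (hsatm : ∀ z ∈ Rf ⊔ Ri, PiDvd π O 1 z → PiDvd π (Rf ⊔ Ri) 1 z)
    (Sf Si : Subalgebra A E) (hSf : Sf ≤ Rf) (hSi : Si ≤ Ri)
    {ε : E} (hε : ε ∈ O) (hε2 : PiDvd π O 1 (ε ^ 2 - ε))
    (hlocf : ∀ 𝔪 : Ideal Sf, 𝔪.IsMaximal → algebraMap A Sf π ∈ 𝔪 →
      ∃ β : Sf, β ∉ 𝔪 ∧ ∃ a ∈ Rf, PiDvd π O 1 (a - (β : E) * ε))
    (hloci : ∀ 𝔪 : Ideal Si, 𝔪.IsMaximal → algebraMap A Si π ∈ 𝔪 →
      ∃ β : Si, β ∉ 𝔪 ∧ ∃ a ∈ Ri, PiDvd π O 1 (a - (β : E) * ε)) :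
    PiDvd π O 1 ε ∨ PiDvd π O 1 (ε - 1) := by
  obtain ⟨a, ha, haε⟩ := klss_glue π Rf O Sf hRfO hSf hε hlocf
  obtain ⟨b, hb, hbε⟩ := klss_glue π Ri O Si hRiO hSi hε hloci
  have haO : a ∈ O := hRfO ha
  have hbO : b ∈ O := hRiO hb
  have key : ∀ c : E, c ∈ O → PiDvd π O 1 (c - ε) → PiDvd π O 1 (c ^ 2 - c) := by
    intro c hc h
    have e : c ^ 2 - c = (ε ^ 2 - ε) + (c - ε) * (c + ε - 1) := by ring
    rw [e]
    exact hε2.add (h.mul_right (O.sub_mem (O.add_mem hc hε) O.one_mem))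
  have ha2 : PiDvd π Rf 1 (a ^ 2 - a) :=
    hsatf _ (Rf.sub_mem (Rf.pow_mem ha 2) ha) (key a haO haε)
  have hb2 : PiDvd π Ri 1 (b ^ 2 - b) :=
    hsati _ (Ri.sub_mem (Ri.pow_mem hb 2) hb) (key b hbO hbε)
  have hab : PiDvd π (Rf ⊔ Ri) 1 (a - b) := by
    refine hsatm _ ((Rf ⊔ Ri).sub_mem ((le_sup_left : Rf ≤ Rf ⊔ Ri) ha)
      ((le_sup_right : Ri ≤ Rf ⊔ Ri) hb)) ?_
    have e : a - b = (a - ε) - (b - ε) := by ring
    rw [e]
    exact haε.sub hbε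
  rcases connected_of_prime hπ hxy Rf Ri hx hy hgen hmid_f hmid_i hcap hsat ha hb ha2 hb2 hab
    with ⟨h1, -⟩ | ⟨h1, -⟩
  · left
    have e : ε = a - (a - ε) := by ring
    rw [e]
    exact (h1.of_le hRfO).sub haε
  · right
    have e : ε - 1 = (a - 1) - (a - ε) := by ring
    rw [e]
    exact (h1.of_le hRfO).sub haε

end Fermat.Agent.H45
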